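import Fermat.Agent.InvarianceOfDomain.Basic
import Mathlib.LinearAlgebra.Matrix.Irreducible.Defs
import Mathlib.LinearAlgebra.Eigenspace.Zero
import Mathlib.LinearAlgebra.Charpoly.ToMatrix
import Mathlib.LinearAlgebra.Matrix.ToLinearEquiv
import Mathlib.Analysis.Complex.Basic

/-!
# The theorem of Perron and Frobenius for irreducible matrices

A nonnegative eigenvector of an irreducible matrix is positive; pairing with a positive left
eigenvector shows that its eigenvalue `μ` is the only one with such a vector and is a simple root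
of the characteristic polynomial, and comparing ratios that no eigenvalue exceeds `μ` in norm.
-/

set_option autoImplicit false

noncomputable section

namespace FA.PerronFrobenius

open Matrix Finset Polynomial

variable {ι : Type*} [Fintype ι] [DecidableEq ι] {A : Matrix ι ι ℝ}

theorem pow_mulVec_eigen {R : Type*} [CommRing R] {M : Matrix ι ι R} {μ : R} {v : ι → R}
    (h : M *ᵥ v = μ • v) (k : ℕ) : (M ^ k) *ᵥ v = μ ^ k • v := by
  induction k with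
  | zero => simp
  | succ k ih => rw [pow_succ, ← mulVec_mulVec, h, mulVec_smul, ih, smul_smul, ← pow_succ']

theorem exists_pow_entry_pos (hA : A.IsIrreducible) (i j : ι) :
    ∃ k > 0, 0 < (A ^ k) i j :=
  (isIrreducible_iff_exists_pow_pos hA.nonneg).1 hA i j

/-- A nonnegative eigenvector is positive, and so is its eigenvalue. -/
theorem pos_of_eigen (hA : A.IsIrreducible) {μ : ℝ} {v : ι → ℝ} (hv : ∀ i, 0 ≤ v i) (hv0 : v ≠ 0)
    (h : A *ᵥ v = μ • v) : 0 < μ ∧ ∀ i, 0 < v i := by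
  obtain ⟨j, hj⟩ : ∃ j, 0 < v j := by
    by_contra hc
    simp only [not_exists, not_lt] at hc
    exact hv0 (funext fun i => le_antisymm (hc i) (hv i))
  have key : ∀ i, ∃ k > 0, 0 < μ ^ k * v i := fun i => by
    obtain ⟨k, hk, hpos⟩ := exists_pow_entry_pos hA i j
    refine ⟨k, hk, (mul_pos hpos hj).trans_le ?_⟩
    have h1 : (A ^ k) i j * v j ≤ ((A ^ k) *ᵥ v) i :=
      single_le_sum (f := fun l => (A ^ k) i l * v l)
        (fun l _ => mul_nonneg (pow_apply_nonneg hA.nonneg k i l) (hv l)) (Finset.mem_univ j)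
    rwa [pow_mulVec_eigen h, Pi.smul_apply, smul_eq_mul] at h1
  have hvpos : ∀ i, 0 < v i := fun i => (hv i).lt_of_ne fun h0 => by
    obtain ⟨k, -, hk⟩ := key i
    rw [← h0, mul_zero] at hk
    exact lt_irrefl _ hk
  refine ⟨?_, hvpos⟩
  obtain ⟨k, hk0, hk⟩ := key j
  have h1 : 0 ≤ μ * v j := by
    have h2 : 0 ≤ (A *ᵥ v) j := sum_nonneg fun l _ => mul_nonneg (hA.nonneg j l) (hv l)
    rwa [h] at h2
  refine (nonneg_of_mul_nonneg_left h1 hj).lt_of_ne fun h0 => ?_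
  rw [← h0, zero_pow hk0.ne', zero_mul] at hk
  exact lt_irrefl _ hk

variable [Nonempty ι]

theorem exists_perron (hA : A.IsIrreducible) :
    ∃ μ : ℝ, 0 < μ ∧ ∃ v u : ι → ℝ, (∀ i, 0 < v i) ∧ (∀ i, 0 < u i) ∧ A *ᵥ v = μ • v ∧
      Aᵀ *ᵥ u = μ • u := by
  have hne : ∀ {v : ι → ℝ}, v ∈ stdSimplex ℝ ι → v ≠ 0 := fun hv h0 => by
    have h1 := hv.2
    simp [h0] at h1
  obtain ⟨μ, -, v, hv, hAv⟩ := FA.InvarianceOfDomain.exists_eigenvector A hA.nonneg
  obtain ⟨hμ, hvpos⟩ := pos_of_eigen hA hv.1 (hne hv) hAv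
  obtain ⟨ν, -, u, hu, hAu⟩ := FA.InvarianceOfDomain.exists_eigenvector Aᵀ hA.transpose.nonneg
  obtain ⟨-, hupos⟩ := pos_of_eigen hA.transpose hu.1 (hne hu) hAu
  refine ⟨μ, hμ, v, u, hvpos, hupos, hAv, ?_⟩
  have h1 : u ⬝ᵥ A *ᵥ v = (Aᵀ *ᵥ u) ⬝ᵥ v := by
    rw [dotProduct_mulVec, mulVec_transpose]
  rw [hAv, hAu, dotProduct_smul, smul_dotProduct, smul_eq_mul, smul_eq_mul] at h1
  have h2 : 0 < u ⬝ᵥ v :=
    sum_pos (fun i _ => mul_pos (hupos i) (hvpos i)) Finset.univ_nonempty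
  rw [hAu, mul_right_cancel₀ h2.ne' h1]

omit [DecidableEq ι] [Nonempty ι] in
/-- A vector with positive left eigenvector `u`: `u ⬝ᵥ (A *ᵥ w) = μ * (u ⬝ᵥ w)`. -/
theorem left_dot {μ : ℝ} {u : ι → ℝ} (hu : Aᵀ *ᵥ u = μ • u) (w : ι → ℝ) :
    u ⬝ᵥ A *ᵥ w = μ * (u ⬝ᵥ w) := by
  rw [dotProduct_mulVec, ← mulVec_transpose, hu, smul_dotProduct, smul_eq_mul]

omit [DecidableEq ι] [Nonempty ι] in
theorem eigenvalue_unique {μ ν : ℝ} {u w : ι → ℝ} (hu : ∀ i, 0 < u i) (hAu : Aᵀ *ᵥ u = μ • u)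
    (hw : ∀ i, 0 ≤ w i) (hw0 : w ≠ 0) (hAw : A *ᵥ w = ν • w) : ν = μ := by
  have h1 := left_dot hAu w
  rw [hAw, dotProduct_smul, smul_eq_mul] at h1
  refine mul_right_cancel₀ (b := u ⬝ᵥ w) ?_ h1
  obtain ⟨j, hj⟩ := Function.ne_iff.1 hw0
  refine (sum_pos' (fun i _ => mul_nonneg (hu i).le (hw i)) ⟨j, Finset.mem_univ j, ?_⟩).ne'
  exact mul_pos (hu j) ((hw j).lt_of_ne (Ne.symm hj))

/-- The eigenspace of `μ` is the line through `v`. -/
theorem eigen_eq_smul (hA : A.IsIrreducible) {μ : ℝ} {v w : ι → ℝ} (hv : ∀ i, 0 < v i)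
    (hAv : A *ᵥ v = μ • v) (hAw : A *ᵥ w = μ • w) : ∃ c : ℝ, w = c • v := by
  obtain ⟨i₀, -, hi₀⟩ := Finset.exists_max_image univ (fun i => w i / v i) univ_nonempty
  refine ⟨w i₀ / v i₀, ?_⟩
  by_contra hne
  have hnn : ∀ i, 0 ≤ ((w i₀ / v i₀) • v - w) i := fun i => by
    rw [Pi.sub_apply, Pi.smul_apply, smul_eq_mul, sub_nonneg]
    exact (div_le_iff₀ (hv i)).1 (hi₀ i (Finset.mem_univ i))
  have h0 := (pos_of_eigen hA hnn (fun h => hne (sub_eq_zero.1 h).symm) (μ := μ)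
    (by rw [mulVec_sub, mulVec_smul, hAv, hAw, smul_sub, smul_comm])).2 i₀
  rw [Pi.sub_apply, Pi.smul_apply, smul_eq_mul, div_mul_cancel₀ _ (hv i₀).ne', sub_self] at h0
  exact lt_irrefl _ h0

theorem rootMultiplicity_eq_one (hA : A.IsIrreducible) {μ : ℝ} {v u : ι → ℝ} (hv : ∀ i, 0 < v i)
    (hu : ∀ i, 0 < u i) (hAv : A *ᵥ v = μ • v) (hAu : Aᵀ *ᵥ u = μ • u) :
    A.charpoly.rootMultiplicity μ = 1 := by
  rw [← Matrix.charpoly_toLin', ← LinearMap.finrank_maxGenEigenspace_eq]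
  obtain ⟨f, hf⟩ : ∃ f : Module.End ℝ (ι → ℝ), f = A.toLin' - μ • 1 := ⟨_, rfl⟩
  have hfx : ∀ x, f x = A *ᵥ x - μ • x := fun x => by simp [hf, toLin'_apply]
  have key : ∀ k x, (f ^ k) x = 0 → ∃ c : ℝ, x = c • v := by
    intro k
    induction k with
    | zero => exact fun x hx => ⟨0, by rw [zero_smul]; simpa using hx⟩
    | succ k ih =>
      intro x hx
      rw [pow_succ, Module.End.mul_apply] at hx
      obtain ⟨c, hc⟩ := ih _ hx
      have hc0 : c = 0 := by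
        have h1 := congrArg (u ⬝ᵥ ·) hc
        simp only [hfx, dotProduct_sub, left_dot hAu, dotProduct_smul, smul_eq_mul, sub_self] at h1
        exact (mul_eq_zero.1 h1.symm).resolve_right
          (sum_pos (fun i _ => mul_pos (hu i) (hv i)) univ_nonempty).ne'
      rw [hc0, zero_smul, hfx, sub_eq_zero] at hc
      exact eigen_eq_smul hA hv hAv hc
  have hspan : (Module.End.maxGenEigenspace A.toLin' μ) = ℝ ∙ v := by
    refine le_antisymm (fun x hx => ?_) ((Submodule.span_singleton_le_iff_mem _ _).2 ?_)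
    · obtain ⟨k, hk⟩ := (Module.End.mem_maxGenEigenspace _ μ x).1 hx
      obtain ⟨c, rfl⟩ := key k x (hf ▸ hk)
      exact Submodule.mem_span_singleton.2 ⟨c, rfl⟩
    · refine (Module.End.mem_maxGenEigenspace _ μ v).2 ⟨1, ?_⟩
      rw [← hf, pow_one, hfx, hAv, sub_self]
  rw [hspan]
  exact finrank_span_singleton fun h0 => (hv (Classical.arbitrary ι)).ne' (congrFun h0 _)

/-- The matrix over `ℂ`. -/
def complexify (A : Matrix ι ι ℝ) : Matrix ι ι ℂ := A.map Complex.ofRealHom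

omit [Nonempty ι] in
theorem exists_complex_eigen {z : ℂ} (hz : (complexify A).charpoly.IsRoot z) :
    ∃ w : ι → ℂ, w ≠ 0 ∧ complexify A *ᵥ w = z • w := by
  rw [IsRoot.def, Matrix.eval_charpoly, ← exists_mulVec_eq_zero_iff] at hz
  obtain ⟨w, hw, hw0⟩ := hz
  refine ⟨w, hw, ?_⟩
  rw [sub_mulVec, sub_eq_zero, scalar_apply] at hw0
  rw [← hw0]
  ext i
  simp [mulVec_diagonal]

omit [DecidableEq ι] [Nonempty ι] in
theorem norm_mul_le (hA : ∀ i j, 0 ≤ A i j) {z : ℂ} {w : ι → ℂ}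
    (hw : complexify A *ᵥ w = z • w) (i : ι) :
    ‖z‖ * ‖w i‖ ≤ (A *ᵥ fun j => ‖w j‖) i := by
  have h1 : (complexify A *ᵥ w) i = z * w i := by rw [hw]; rfl
  rw [← norm_mul, ← h1]
  refine (norm_sum_le _ _).trans (le_of_eq (sum_congr rfl fun j _ => ?_))
  simp [complexify, abs_of_nonneg (hA i j)]

theorem norm_root_le (hA : A.IsIrreducible) {μ : ℝ} {v : ι → ℝ} (hv : ∀ i, 0 < v i)
    (hAv : A *ᵥ v = μ • v) {z : ℂ} (hz : (complexify A).charpoly.IsRoot z) : ‖z‖ ≤ μ := by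
  obtain ⟨w, hw0, hw⟩ := exists_complex_eigen hz
  obtain ⟨i₀, -, hi₀⟩ := Finset.exists_max_image univ (fun i => ‖w i‖ / v i) univ_nonempty
  obtain ⟨c, hc⟩ : ∃ c, c = ‖w i₀‖ / v i₀ := ⟨_, rfl⟩
  have hle : ∀ j, ‖w j‖ ≤ c * v j := fun j =>
    hc ▸ (div_le_iff₀ (hv j)).1 (hi₀ j (Finset.mem_univ j))
  have hw₀ : ‖w i₀‖ = c * v i₀ := by rw [hc, div_mul_cancel₀ _ (hv i₀).ne']
  have hcpos : 0 < c := by
    by_contra h0
    refine hw0 (funext fun j => norm_le_zero_iff.1 ((hle j).trans ?_))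
    exact mul_nonpos_of_nonpos_of_nonneg (not_lt.1 h0) (hv j).le
  refine le_of_mul_le_mul_right ((norm_mul_le hA.nonneg hw i₀).trans ?_)
    (hw₀ ▸ mul_pos hcpos (hv i₀))
  calc (A *ᵥ fun j => ‖w j‖) i₀ ≤ (A *ᵥ c • v) i₀ :=
        sum_le_sum fun j _ => mul_le_mul_of_nonneg_left (hle j) (hA.nonneg i₀ j)
    _ = μ * ‖w i₀‖ := by
        rw [mulVec_smul, hAv, hw₀, Pi.smul_apply, Pi.smul_apply, smul_eq_mul, smul_eq_mul]
        ring

end FA.PerronFrobenius
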