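import Fermat.Agent.PerronFrobenius.Basic
import Mathlib.Analysis.SpecificLimits.Basic

/-!
# Primitive matrices

Equality in the triangle inequality at a positive power leaves `μ` alone on the circle of radius
`μ`. The spread of the ratios `(A ^ m x) i / (μ ^ m v i)` shrinks by a fixed factor at each such
power, and their mean with weights `u i v i` is constant, so they tend to `(u ⬝ x) / (u ⬝ v)`.
-/

set_option autoImplicit false

noncomputable section

namespace FA.PerronFrobenius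

open Matrix Finset Filter
open scoped Topology ComplexConjugate

variable {ι : Type*} [Fintype ι] [DecidableEq ι] [Nonempty ι] {A : Matrix ι ι ℝ}

theorem eigen_eq_of_norm_eq (hA : A.IsPrimitive) {μ : ℝ} {u : ι → ℝ}
    (hu : ∀ i, 0 < u i) (hAu : Aᵀ *ᵥ u = μ • u) {z : ℂ}
    (hz : (complexify A).charpoly.IsRoot z) (hnorm : ‖z‖ = μ) : z = μ := by
  have hirr := hA.isIrreducible
  obtain ⟨w, hw0, hw⟩ := exists_complex_eigen hz
  obtain ⟨a, ha⟩ : ∃ a : ι → ℝ, a = fun i => ‖w i‖ := ⟨_, rfl⟩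
  have hle : ∀ i, μ * a i ≤ (A *ᵥ a) i := fun i => by
    have := norm_mul_le hA.nonneg hw i
    rw [hnorm, ← ha] at this
    rw [show a i = ‖w i‖ from congrFun ha i]
    exact this
  -- pairing with `u` makes the inequality an equality
  have hAa : A *ᵥ a = μ • a := by
    have hsum : ∑ i, u i * ((A *ᵥ a) i - μ * a i) = 0 := by
      simp only [mul_sub, sum_sub_distrib, mul_left_comm (u _) μ]
      rw [← mul_sum, sub_eq_zero]
      exact left_dot hAu a
    funext i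
    have h1 := (sum_eq_zero_iff_of_nonneg fun j _ =>
      mul_nonneg (hu j).le (sub_nonneg.2 (hle j))).1 hsum i (Finset.mem_univ i)
    exact sub_eq_zero.1 ((mul_eq_zero.1 h1).resolve_left (hu i).ne')
  have ha0 : a ≠ 0 := fun h0 => hw0 (funext fun i => norm_eq_zero.1 (by
    have := congrFun h0 i
    simpa [ha] using this))
  obtain ⟨hμ, hapos⟩ := pos_of_eigen hirr (fun i => by rw [ha]; exact norm_nonneg _) ha0 hAa
  obtain ⟨k, -, hk⟩ := hA.exists_pos_pow
  obtain ⟨i₀⟩ := ‹Nonempty ι›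
  -- the triangle inequality at `A ^ k` is an equality
  obtain ⟨t, ht⟩ : ∃ t : ι → ℂ, t = fun j => ((A ^ k) i₀ j : ℂ) * w j := ⟨_, rfl⟩
  have hpow : complexify A ^ k = (A ^ k).map Complex.ofRealHom :=
    (map_pow Complex.ofRealHom.mapMatrix A k).symm
  have hS : ∑ j, t j = z ^ k * w i₀ := by
    have := congrFun (pow_mulVec_eigen hw k) i₀
    rw [hpow] at this
    simpa [mulVec, dotProduct, ht] using this
  have hnormS : ‖∑ j, t j‖ = ∑ j, ‖t j‖ := by
    have h1 := congrFun (pow_mulVec_eigen hAa k) i₀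
    simp only [mulVec, dotProduct, Pi.smul_apply, smul_eq_mul] at h1
    rw [hS, norm_mul, norm_pow, hnorm, ← congrFun ha i₀, ← h1]
    refine sum_congr rfl fun j _ => ?_
    simp [ht, ha, abs_of_nonneg (hk i₀ j).le]
  obtain ⟨S, hSdef⟩ : ∃ S, S = ∑ j, t j := ⟨_, rfl⟩
  rw [← hSdef] at hnormS hS
  have hS0 : 0 < ‖S‖ := by
    rw [hS, norm_mul, norm_pow, hnorm, ← congrFun ha i₀]
    exact mul_pos (pow_pos hμ k) (hapos i₀)
  obtain ⟨c, hc⟩ : ∃ c : ℂ, c = conj S / (‖S‖ : ℂ) := ⟨_, rfl⟩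
  have hcn : ‖c‖ = 1 := by
    rw [hc, norm_div, Complex.norm_conj, Complex.norm_real, norm_norm, div_self hS0.ne']
  have hcS : c * S = (‖S‖ : ℂ) := by
    rw [hc, div_mul_eq_mul_div, mul_comm, Complex.mul_conj, Complex.normSq_eq_norm_sq,
      Complex.ofReal_pow, sq, mul_self_div_self]
  have hray : ∀ j, c * t j = (‖t j‖ : ℂ) := by
    have hre : ∑ j, (‖t j‖ - (c * t j).re) = 0 := by
      rw [sum_sub_distrib, ← Complex.re_sum, ← mul_sum, ← hSdef, hcS, Complex.ofReal_re, hnormS,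
        sub_self]
    intro j
    have hle' : ∀ l, (c * t l).re ≤ ‖t l‖ := fun l => by
      refine (Complex.re_le_norm _).trans (le_of_eq ?_)
      rw [norm_mul, hcn, one_mul]
    have hrej : (c * t j).re = ‖t j‖ := (sub_eq_zero.1
      ((sum_eq_zero_iff_of_nonneg fun l _ => sub_nonneg.2 (hle' l)).1 hre j
        (Finset.mem_univ j))).symm
    have hsq := Complex.normSq_apply (c * t j)
    rw [Complex.normSq_eq_norm_sq, norm_mul, hcn, one_mul, hrej] at hsq
    have him : (c * t j).im = 0 := mul_self_eq_zero.1 (by linarith [sq ‖t j‖])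
    exact Complex.ext (by rw [Complex.ofReal_re, hrej]) (by rw [Complex.ofReal_im, him])
  have hwa : ∀ j, c * w j = (a j : ℂ) := fun j => by
    have h1 := hray j
    rw [ht, norm_mul, Complex.norm_real, Real.norm_eq_abs, abs_of_pos (hk i₀ j),
      Complex.ofReal_mul, mul_left_comm] at h1
    rw [ha]
    exact mul_left_cancel₀ (Complex.ofReal_ne_zero.2 (hk i₀ j).ne') h1
  have h1 : c * (complexify A *ᵥ w) i₀ = ((A *ᵥ a) i₀ : ℂ) := by
    simp only [mulVec, dotProduct, mul_sum, Complex.ofReal_sum, Complex.ofReal_mul]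
    exact sum_congr rfl fun j _ => by rw [← hwa j]; simp [complexify]; ring
  rw [hw, hAa, Pi.smul_apply, Pi.smul_apply, smul_eq_mul, smul_eq_mul, mul_left_comm, hwa,
    Complex.ofReal_mul] at h1
  exact mul_right_cancel₀ (Complex.ofReal_ne_zero.2 (hapos i₀).ne') h1

/-- The ratio of `A ^ m x` to `μ ^ m v`. -/
def ratio (A : Matrix ι ι ℝ) (μ : ℝ) (v x : ι → ℝ) (m : ℕ) (i : ι) : ℝ :=
  ((A ^ m) *ᵥ x) i / (μ ^ m * v i)

omit [Nonempty ι] in
theorem ratio_add {μ : ℝ} {v : ι → ℝ} (hμ : μ ≠ 0) (hv : ∀ i, 0 < v i) (x : ι → ℝ) (m s : ℕ)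
    (i : ι) : ratio A μ v x (m + s) i =
      ∑ l, (A ^ s) i l * v l / (μ ^ s * v i) * ratio A μ v x m l := by
  rw [ratio, add_comm, pow_add, ← mulVec_mulVec, mulVec, dotProduct, sum_div]
  refine sum_congr rfl fun l _ => ?_
  have := (hv l).ne'
  have := (hv i).ne'
  rw [ratio, pow_add]
  field_simp

/-- Averaging with weights at least `δ` shrinks the spread by `1 - δ`. -/
theorem spread_step {μ : ℝ} {v x : ι → ℝ} (hμ : 0 < μ) (hv : ∀ i, 0 < v i)
    (hA : ∀ i j, 0 ≤ A i j) (hAv : A *ᵥ v = μ • v) {m s : ℕ} {δ D : ℝ}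
    (hδ : ∀ i l, δ ≤ (A ^ s) i l * v l / (μ ^ s * v i))
    (hD : ∀ i j, ratio A μ v x m i - ratio A μ v x m j ≤ D) (i j : ι) :
    ratio A μ v x (m + s) i - ratio A μ v x (m + s) j ≤ (1 - δ) * D := by
  obtain ⟨P, hP⟩ : ∃ P : ι → ι → ℝ, P = fun i l => (A ^ s) i l * v l / (μ ^ s * v i) :=
    ⟨_, rfl⟩
  obtain ⟨r, hr⟩ : ∃ r : ι → ℝ, r = ratio A μ v x m := ⟨_, rfl⟩
  have hrow : ∀ i, ∑ l, P i l = 1 := fun i => by
    simp only [hP]
    rw [← sum_div]
    have := congrFun (pow_mulVec_eigen hAv s) i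
    simp only [mulVec, dotProduct, Pi.smul_apply, smul_eq_mul] at this
    rw [this, div_self (mul_pos (pow_pos hμ s) (hv i)).ne']
  have hP0 : ∀ i l, 0 ≤ P i l := fun i l => by
    rw [hP]
    exact div_nonneg (mul_nonneg (pow_apply_nonneg hA s i l) (hv l).le)
      (mul_pos (pow_pos hμ s) (hv i)).le
  have hδP : ∀ i l, δ ≤ P i l := fun i l => by rw [hP]; exact hδ i l
  obtain ⟨b, -, hb⟩ := Finset.exists_max_image univ r univ_nonempty
  obtain ⟨a, -, ha⟩ := Finset.exists_min_image univ r univ_nonempty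
  have hup : ∀ i, ∑ l, P i l * r l ≤ r b - δ * (r b - r a) := fun i => by
    have h1 : P i a * (r b - r a) ≤ ∑ l, P i l * (r b - r l) :=
      single_le_sum (f := fun l => P i l * (r b - r l))
        (fun l _ => mul_nonneg (hP0 i l) (sub_nonneg.2 (hb l (Finset.mem_univ l))))
        (Finset.mem_univ a)
    have h2 : δ * (r b - r a) ≤ P i a * (r b - r a) :=
      mul_le_mul_of_nonneg_right (hδP i a) (sub_nonneg.2 (hb a (Finset.mem_univ a)))
    simp only [mul_sub, sum_sub_distrib, ← sum_mul, hrow, one_mul] at h1 h2 ⊢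
    linarith
  have hlo : r a ≤ ∑ l, P j l * r l := by
    calc r a = ∑ l, P j l * r a := by rw [← sum_mul, hrow, one_mul]
      _ ≤ _ := sum_le_sum fun l _ =>
        mul_le_mul_of_nonneg_left (ha l (Finset.mem_univ l)) (hP0 j l)
  have hδ1 : δ ≤ 1 := (hδP i i).trans
    (hrow i ▸ single_le_sum (f := P i) (fun l _ => hP0 i l) (Finset.mem_univ i))
  have h3 := mul_le_mul_of_nonneg_left (hD b a) (sub_nonneg.2 hδ1)
  rw [← hr] at h3
  rw [ratio_add hμ.ne' hv, ratio_add hμ.ne' hv, ← hr]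
  have h4 := hup i
  simp only [hP] at h4 hlo
  linarith

theorem tendsto_ratio (hA : A.IsPrimitive) {μ : ℝ} {v u : ι → ℝ} (hμ : 0 < μ)
    (hv : ∀ i, 0 < v i) (hu : ∀ i, 0 < u i) (hAv : A *ᵥ v = μ • v) (hAu : Aᵀ *ᵥ u = μ • u)
    (x : ι → ℝ) (i : ι) :
    Tendsto (fun m => ratio A μ v x m i) atTop (𝓝 (u ⬝ᵥ x / u ⬝ᵥ v)) := by
  obtain ⟨k, hk0, hk⟩ := hA.exists_pos_pow
  obtain ⟨P, hP⟩ : ∃ P : ι × ι → ℝ,
      P = fun q => (A ^ k) q.1 q.2 * v q.2 / (μ ^ k * v q.1) := ⟨_, rfl⟩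
  obtain ⟨q₀, -, hq₀⟩ := Finset.exists_min_image univ P univ_nonempty
  have hδ : ∀ i l, P q₀ ≤ (A ^ k) i l * v l / (μ ^ k * v i) := fun i l => by
    have := hq₀ (i, l) (Finset.mem_univ _)
    simpa [hP] using this
  have hδpos : 0 < P q₀ := by
    rw [hP]
    exact div_pos (mul_pos (hk _ _) (hv _)) (mul_pos (pow_pos hμ k) (hv _))
  have hδ1 : P q₀ ≤ 1 := by
    refine (hδ i i).trans ?_
    have := congrFun (pow_mulVec_eigen hAv k) i
    simp only [mulVec, dotProduct, Pi.smul_apply, smul_eq_mul] at this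
    rw [div_le_one (mul_pos (pow_pos hμ k) (hv i)), ← this]
    exact single_le_sum (f := fun l => (A ^ k) i l * v l)
      (fun l _ => (mul_pos (hk i l) (hv l)).le) (Finset.mem_univ i)
  obtain ⟨D, hD⟩ : ∃ D : ℝ, ∀ i j, ratio A μ v x 0 i - ratio A μ v x 0 j ≤ D := by
    obtain ⟨b, -, hb⟩ := Finset.exists_max_image univ
      (fun q : ι × ι => ratio A μ v x 0 q.1 - ratio A μ v x 0 q.2) univ_nonempty
    exact ⟨_, fun i j => hb (i, j) (Finset.mem_univ _)⟩
  have hspread : ∀ q s i j, ratio A μ v x (k * q + s) i - ratio A μ v x (k * q + s) j ≤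
      (1 - P q₀) ^ q * D := by
    intro q s
    have hq : ∀ i j, ratio A μ v x (k * q) i - ratio A μ v x (k * q) j ≤
        (1 - P q₀) ^ q * D := by
      induction q with
      | zero => simpa using hD
      | succ q ih =>
        intro i j
        rw [Nat.mul_succ, pow_succ', mul_assoc]
        exact spread_step hμ hv hA.nonneg hAv hδ ih i j
    intro i j
    have := spread_step (δ := 0) hμ hv hA.nonneg hAv (s := s) (fun i l => div_nonneg
      (mul_nonneg (pow_apply_nonneg hA.nonneg s i l) (hv l).le)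
      (mul_pos (pow_pos hμ s) (hv i)).le) hq i j
    simpa using this
  have hpos : 0 < u ⬝ᵥ v := sum_pos (fun i _ => mul_pos (hu i) (hv i)) univ_nonempty
  have hmean : ∀ m, ∑ l, u l * v l * ratio A μ v x m l = u ⬝ᵥ x := fun m => by
    have h1 : u ⬝ᵥ (A ^ m) *ᵥ x = μ ^ m * (u ⬝ᵥ x) :=
      left_dot (by rw [transpose_pow]; exact pow_mulVec_eigen hAu m) x
    rw [← mul_div_cancel_left₀ (u ⬝ᵥ x) (pow_pos hμ m).ne', ← h1, dotProduct, sum_div]
    refine sum_congr rfl fun l _ => ?_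
    have := (hv l).ne'
    rw [ratio]
    field_simp
  have hbound : ∀ m, |ratio A μ v x m i - u ⬝ᵥ x / u ⬝ᵥ v| ≤ (1 - P q₀) ^ (m / k) * D := by
    intro m
    have hsp : ∀ a b, ratio A μ v x m a - ratio A μ v x m b ≤ (1 - P q₀) ^ (m / k) * D := by
      have := hspread (m / k) (m % k)
      rwa [Nat.div_add_mod] at this
    obtain ⟨E, hE⟩ : ∃ E, E = (1 - P q₀) ^ (m / k) * D := ⟨_, rfl⟩
    rw [← hE] at hsp ⊢
    have key : (u ⬝ᵥ v) * (ratio A μ v x m i - u ⬝ᵥ x / u ⬝ᵥ v) =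
        ∑ l, u l * v l * (ratio A μ v x m i - ratio A μ v x m l) := by
      simp only [mul_sub, sum_sub_distrib, hmean, ← sum_mul]
      rw [mul_div_cancel₀ _ hpos.ne']
      rfl
    have habs : (u ⬝ᵥ v) * |ratio A μ v x m i - u ⬝ᵥ x / u ⬝ᵥ v| ≤ (u ⬝ᵥ v) * E := by
      rw [show (u ⬝ᵥ v) * |ratio A μ v x m i - u ⬝ᵥ x / u ⬝ᵥ v| =
        |(u ⬝ᵥ v) * (ratio A μ v x m i - u ⬝ᵥ x / u ⬝ᵥ v)| by rw [abs_mul, abs_of_pos hpos], key]
      refine (abs_sum_le_sum_abs _ _).trans ?_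
      rw [dotProduct, sum_mul]
      refine sum_le_sum fun l _ => ?_
      rw [abs_mul, abs_of_pos (mul_pos (hu l) (hv l))]
      refine mul_le_mul_of_nonneg_left (abs_sub_le_iff.2 ⟨hsp i l, hsp l i⟩)
        (mul_pos (hu l) (hv l)).le
    exact le_of_mul_le_mul_left habs hpos
  rw [tendsto_iff_norm_sub_tendsto_zero]
  refine squeeze_zero (fun m => norm_nonneg _) hbound ?_
  have h1 : Tendsto (fun q : ℕ => (1 - P q₀) ^ q * D) atTop (𝓝 0) := by
    simpa using (tendsto_pow_atTop_nhds_zero_of_lt_one (by linarith) (by linarith)).mul_const D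
  exact h1.comp (tendsto_atTop_atTop.2 fun b => ⟨b * k, fun a ha =>
    (Nat.le_div_iff_mul_le hk0).2 ha⟩)

end FA.PerronFrobenius
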